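import Mathlib
import Fermat.Prelude.Def_FormalHecke_Eigensystem

set_option autoImplicit false

namespace Fermat.Agent.S49

open FormalHecke

variable {R : Type*} [CommRing R]

/-- Prime-power recursion extracted from the eigensystem relations. -/
theorem isEigensystem_prime_pow {e a : ℕ → R} (h : IsEigensystem e a) (ℓ r : ℕ) (hℓ : ℓ.Prime) :
    a (ℓ ^ (r + 2)) = a ℓ * a (ℓ ^ (r + 1)) - e ℓ * a (ℓ ^ r) := by
  have h2 := h.2 ℓ hℓ (ℓ ^ (r + 1))
  have hdvd : ℓ ∣ ℓ ^ (r + 1) := dvd_pow_self ℓ (Nat.succ_ne_zero r)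
  rw [if_pos hdvd] at h2
  have hdiv : ℓ ^ (r + 1) / ℓ = ℓ ^ r := by
    rw [pow_succ, Nat.mul_div_cancel _ hℓ.pos]
  rw [hdiv] at h2
  have hmul : ℓ * ℓ ^ (r + 1) = ℓ ^ (r + 2) := by ring
  rw [hmul] at h2
  rw [← h2]; ring

/-- Multiplicativity against prime powers. -/
theorem isEigensystem_prime_pow_mul {e a : ℕ → R} (h : IsEigensystem e a) (ℓ : ℕ) (hℓ : ℓ.Prime)
    (k n : ℕ) (hn : ¬ ℓ ∣ n) : a (ℓ ^ k * n) = a (ℓ ^ k) * a n := by
  induction k using Nat.twoStepInduction with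
  | zero => simp [h.1]
  | one =>
    have h2 := h.2 ℓ hℓ n
    rw [if_neg hn, mul_zero, add_zero] at h2
    simpa using h2
  | more k ih0 ih1 =>
    have h2 := h.2 ℓ hℓ (ℓ ^ (k + 1) * n)
    have hdvd : ℓ ∣ ℓ ^ (k + 1) * n := Dvd.dvd.mul_right (dvd_pow_self ℓ (Nat.succ_ne_zero k)) n
    rw [if_pos hdvd] at h2
    have hdiv : ℓ ^ (k + 1) * n / ℓ = ℓ ^ k * n := by
      rw [pow_succ, mul_assoc, mul_comm ℓ n, ← mul_assoc, Nat.mul_div_cancel _ hℓ.pos]
    rw [hdiv] at h2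
    have hmul : ℓ * (ℓ ^ (k + 1) * n) = ℓ ^ (k + 2) * n := by ring
    rw [hmul, ih0, ih1] at h2
    rw [isEigensystem_prime_pow h ℓ k hℓ]
    have : a (ℓ ^ (k + 2) * n) = a ℓ * (a (ℓ ^ (k + 1)) * a n) - e ℓ * (a (ℓ ^ k) * a n) := by
      rw [← h2]; ring
    rw [this]; ring

/-- Full multiplicativity on coprime arguments. -/
theorem isEigensystem_mul_of_coprime {e a : ℕ → R} (h : IsEigensystem e a) (m n : ℕ)
    (hmn : m.Coprime n) : a (m * n) = a m * a n := by
  induction m using Nat.recOnPosPrimePosCoprime generalizing n with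
  | zero =>
    have : n = 1 := by simpa using hmn
    subst this
    simp [h.1]
  | one => simp [h.1]
  | prime_pow p k hp hk =>
    have hpn : ¬ p ∣ n := by
      intro hd
      have : p ∣ Nat.gcd (p ^ k) n := Nat.dvd_gcd (dvd_pow_self p hk.ne') hd
      rw [hmn] at this
      exact hp.one_lt.ne' (Nat.dvd_one.mp this)
    exact isEigensystem_prime_pow_mul h p hp k n hpn
  | coprime u v hu hv huv ihu ihv =>
    have hun : u.Coprime n := Nat.Coprime.coprime_dvd_left (Dvd.intro v rfl) hmn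
    have hvn : v.Coprime n := Nat.Coprime.coprime_dvd_left (Dvd.intro_left u rfl) hmn
    have huvn : u.Coprime (v * n) := Nat.Coprime.mul_right huv hun
    rw [mul_assoc, ihu (v * n) huvn, ihv n hvn, ihu v huv]
    ring

theorem isRecursive_of_isEigensystem {e a : ℕ → R} (h : IsEigensystem e a) : IsRecursive e a :=
  ⟨h.1, isEigensystem_mul_of_coprime h, fun ℓ r hℓ => isEigensystem_prime_pow h ℓ r hℓ⟩

end Fermat.Agent.S49
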