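import Mathlib
import Fermat.Prelude.Def_FormalHecke_Eigensystem
import Fermat.Prelude.Def_FLTPrelim_Modularity
import Fermat.Prelude.Def_ModularForm_HeckeOperatorForms
import Fermat.Prelude.Thm_ModularFormClass_qCoeff_heckeT
import Fermat.Prelude.Thm_ModularFormClass_qCoeff_heckeU
import Fermat.Prelude.Thm_CongruenceSubgroup_one_mem_strictPeriods_Gamma0
import Fermat.Agent.S49.FormalRecursive

set_option autoImplicit false

namespace Fermat.Agent.S49

open FormalHecke ModularFormClass UpperHalfPlane CongruenceSubgroup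

variable {N : ℕ}

/-- `qCoeff` of a scalar multiple of a cusp form. -/
theorem qCoeff_smul_cuspForm (c : ℂ) (v : CuspForm (Gamma0 N) 2) (n : ℕ) :
    qCoeff (⇑(c • v)) n = c * qCoeff (⇑v) n := by
  have h := ModularForm.qExpansion_smul (h := 1) one_pos (one_mem_strictPeriods_Gamma0 N) c v
  have hc : (⇑(c • v) : ℍ → ℂ) = c • ⇑v := rfl
  rw [qCoeff, qCoeff, hc, h]
  simp

/-- The constant `qCoeff` of a cusp form vanishes. -/
theorem qCoeff_zero_cuspForm (v : CuspForm (Gamma0 N) 2) : qCoeff (⇑v) 0 = 0 :=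
  CuspFormClass.qExpansion_coeff_zero v one_pos (one_mem_strictPeriods_Gamma0 N)

/-- q-expansion principle for cusp forms on `Γ₀(N)`. -/
theorem cuspForm_eq_zero_of_qCoeff (v : CuspForm (Gamma0 N) 2)
    (h : ∀ n, qCoeff (⇑v) n = 0) : v = 0 := by
  have hΓ := one_mem_strictPeriods_Gamma0 N
  have : Fact (IsCusp OnePoint.infty
      ((Gamma0 N : Subgroup (Matrix.SpecialLinearGroup (Fin 2) ℤ)) :
        Subgroup (Matrix.GeneralLinearGroup (Fin 2) ℝ))) :=
    ⟨Subgroup.isCusp_of_mem_strictPeriods one_pos hΓ⟩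
  have hq : qExpansion 1 (⇑v) = 0 := by
    ext n
    simpa [qCoeff] using h n
  have := (UpperHalfPlane.qExpansion_eq_zero_iff (h := 1) one_pos
    (SlashInvariantFormClass.periodic_comp_ofComplex v hΓ) (holo v) (bdd_at_infty v)).mp hq
  exact DFunLike.coe_injective this

theorem qCoeff_heckeTLin_cuspForm {ℓ : ℕ} (hℓ : ℓ.Prime) (hℓN : ¬ ℓ ∣ N)
    (v : CuspForm (Gamma0 N) 2) (n : ℕ) :
    qCoeff (⇑(CuspForm.heckeTLin 2 hℓ hℓN v)) n =
      ModularForm.coeffHeckeT 2 ℓ (qCoeff ⇑v) n := by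
  rw [CuspForm.coe_heckeTLin_apply]
  exact ModularFormClass.qCoeff_heckeT v (one_mem_strictPeriods_Gamma0 N) hℓ.ne_zero n

theorem qCoeff_heckeULin_cuspForm [NeZero N] {q : ℕ} (hq : q.Prime) (hqN : q ∣ N)
    (v : CuspForm (Gamma0 N) 2) (n : ℕ) :
    qCoeff (⇑(CuspForm.heckeULin 2 hqN v)) n =
      ModularForm.coeffHeckeU q (qCoeff ⇑v) n := by
  rw [CuspForm.coe_heckeULin_apply]
  exact ModularFormClass.qCoeff_heckeU v (one_mem_strictPeriods_Gamma0 N) hq.ne_zero n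

/-- The formal character attached to weight-2 level-`N` Hecke relations over `ℂ`. -/
noncomputable def levelChar (N : ℕ) (ℓ : ℕ) : ℂ := if ℓ ∣ N then 0 else (ℓ : ℂ)

/-- Coefficient relations of a simultaneous eigenvector. -/
theorem qCoeff_rel_of_eigenvector [NeZero N] (v : CuspForm (Gamma0 N) 2) (lam : ℕ → ℂ)
    (hT : ∀ (ℓ : ℕ) (hℓ : ℓ.Prime) (hℓN : ¬ ℓ ∣ N), CuspForm.heckeTLin 2 hℓ hℓN v = lam ℓ • v)
    (hU : ∀ (q : ℕ) (_ : q.Prime) (hqN : q ∣ N), CuspForm.heckeULin 2 hqN v = lam q • v)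
    (ℓ : ℕ) (hℓ : ℓ.Prime) (n : ℕ) :
    qCoeff (⇑v) (ℓ * n) + levelChar N ℓ * (if ℓ ∣ n then qCoeff (⇑v) (n / ℓ) else 0) =
      lam ℓ * qCoeff (⇑v) n := by
  by_cases hℓN : ℓ ∣ N
  · have h := qCoeff_heckeULin_cuspForm hℓ hℓN v n
    rw [hU ℓ hℓ hℓN, qCoeff_smul_cuspForm, ModularForm.coeffHeckeU_apply] at h
    rw [levelChar, if_pos hℓN, zero_mul, add_zero, mul_comm ℓ n, h]
  · have h := qCoeff_heckeTLin_cuspForm hℓ hℓN v n
    rw [hT ℓ hℓ hℓN, qCoeff_smul_cuspForm, ModularForm.coeffHeckeT_apply] at h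
    rw [levelChar, if_neg hℓN, mul_comm ℓ n, h]
    split_ifs <;> simp

/-- A nonzero simultaneous eigenvector has nonvanishing first coefficient. -/
theorem qCoeff_one_ne_zero_of_eigenvector [NeZero N] (v : CuspForm (Gamma0 N) 2) (hv : v ≠ 0)
    (lam : ℕ → ℂ)
    (hT : ∀ (ℓ : ℕ) (hℓ : ℓ.Prime) (hℓN : ¬ ℓ ∣ N), CuspForm.heckeTLin 2 hℓ hℓN v = lam ℓ • v)
    (hU : ∀ (q : ℕ) (_ : q.Prime) (hqN : q ∣ N), CuspForm.heckeULin 2 hqN v = lam q • v) :
    qCoeff (⇑v) 1 ≠ 0 := by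
  intro h1
  apply hv
  apply cuspForm_eq_zero_of_qCoeff
  intro n
  induction n using Nat.strong_induction_on with
  | _ n ih =>
    rcases Nat.lt_or_ge n 2 with hn | hn
    · interval_cases n
      · exact qCoeff_zero_cuspForm v
      · exact h1
    · obtain ⟨p, hp, hpn⟩ := Nat.exists_prime_and_dvd (show n ≠ 1 by omega)
      obtain ⟨m, rfl⟩ := hpn
      have hm0 : m ≠ 0 := by rintro rfl; omega
      have hmlt : m < p * m := by
        have := hp.one_lt
        nlinarith [Nat.pos_of_ne_zero hm0]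
      have hrel := qCoeff_rel_of_eigenvector v lam hT hU p hp m
      rw [ih m hmlt, mul_zero] at hrel
      have h2 : (if p ∣ m then qCoeff (⇑v) (m / p) else 0) = 0 := by
        split_ifs with hd
        · apply ih
          calc m / p ≤ m := Nat.div_le_self m p
            _ < p * m := hmlt
        · rfl
      rw [h2, mul_zero, add_zero] at hrel
      exact hrel

/-- From a nonzero simultaneous Hecke eigenvector to a normalised eigenform. -/
theorem exists_isNormalizedEigenform_of_eigenvector [NeZero N] (v : CuspForm (Gamma0 N) 2)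
    (hv : v ≠ 0) (lam : ℕ → ℂ)
    (hT : ∀ (ℓ : ℕ) (hℓ : ℓ.Prime) (hℓN : ¬ ℓ ∣ N), CuspForm.heckeTLin 2 hℓ hℓN v = lam ℓ • v)
    (hU : ∀ (q : ℕ) (_ : q.Prime) (hqN : q ∣ N), CuspForm.heckeULin 2 hqN v = lam q • v) :
    ∃ f : CuspForm (Gamma0 N) 2, f.IsNormalizedEigenform ∧
      ∀ p : ℕ, p.Prime → qCoeff (⇑f) p = lam p := by
  have h1 := qCoeff_one_ne_zero_of_eigenvector v hv lam hT hU
  set c : ℂ := (qCoeff (⇑v) 1)⁻¹ with hc
  have hb : ∀ n, qCoeff (⇑(c • v)) n = c * qCoeff (⇑v) n := qCoeff_smul_cuspForm c v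
  have hb1 : qCoeff (⇑(c • v)) 1 = 1 := by rw [hb, hc, inv_mul_cancel₀ h1]
  have hrel : ∀ (ℓ : ℕ) (_ : ℓ.Prime) (n : ℕ),
      qCoeff (⇑(c • v)) (ℓ * n) +
        levelChar N ℓ * (if ℓ ∣ n then qCoeff (⇑(c • v)) (n / ℓ) else 0) =
      lam ℓ * qCoeff (⇑(c • v)) n := by
    intro ℓ hℓ n
    have h := qCoeff_rel_of_eigenvector v lam hT hU ℓ hℓ n
    rw [hb, hb, hb]
    have : c * qCoeff (⇑v) (ℓ * n) +
        levelChar N ℓ * (if ℓ ∣ n then c * qCoeff (⇑v) (n / ℓ) else 0) =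
        c * (qCoeff (⇑v) (ℓ * n) +
          levelChar N ℓ * (if ℓ ∣ n then qCoeff (⇑v) (n / ℓ) else 0)) := by
      split_ifs <;> ring
    rw [this, h]; ring
  have hlam : ∀ p : ℕ, p.Prime → qCoeff (⇑(c • v)) p = lam p := by
    intro p hp
    have h := hrel p hp 1
    rw [mul_one, hb1, mul_one] at h
    have hnd : ¬ p ∣ 1 := fun hd => hp.one_lt.ne' (Nat.dvd_one.mp hd)
    rw [if_neg hnd, mul_zero, add_zero] at h
    exact h
  have heig : IsEigensystem (levelChar N) (fun n => qCoeff (⇑(c • v)) n) := by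
    refine ⟨hb1, fun ℓ hℓ n => ?_⟩
    have h := hrel ℓ hℓ n
    rw [← hlam ℓ hℓ] at h
    exact h
  have hrec := isRecursive_of_isEigensystem heig
  refine ⟨c • v, ⟨hb1, hrec.2.1, ?_, ?_⟩, hlam⟩
  · intro p r hp hpN
    have h := hrec.2.2 p r hp
    simp only [levelChar, if_neg hpN] at h
    exact h
  · intro p r hp hpN
    have h := hrec.2.2 p r hp
    simp only [levelChar, if_pos hpN, zero_mul, sub_zero] at h
    exact h

end Fermat.Agent.S49
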