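import Mathlib

set_option autoImplicit false

namespace Fermat.Agent.S49

open Module

section CommonEigenvector

variable {A : Type*} [CommRing A] {V : Type*} [AddCommGroup V] [Module ℂ V]
  [FiniteDimensional ℂ V]

theorem rho_comm_apply (ρ : A →+* Module.End ℂ V) (a b : A) (x : V) :
    ρ a (ρ b x) = ρ b (ρ a x) := by
  have h : ρ a * ρ b = ρ b * ρ a := by rw [← map_mul, ← map_mul, mul_comm]
  exact LinearMap.congr_fun h x

/-- A commuting family of endomorphisms has a common eigenvector in every nonzero stable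
subspace. -/
theorem exists_common_eigenvector_in (ρ : A →+* Module.End ℂ V) :
    ∀ (n : ℕ) (W : Submodule ℂ V), Module.finrank ℂ W = n → W ≠ ⊥ →
      (∀ a, ∀ w ∈ W, ρ a w ∈ W) →
      ∃ v ∈ W, v ≠ 0 ∧ ∀ a, ∃ μ : ℂ, ρ a v = μ • v := by
  intro n
  induction n using Nat.strong_induction_on with
  | _ n ih =>
    intro W hn hW hstab
    by_cases h : ∀ a, ∃ μ : ℂ, ∀ w ∈ W, ρ a w = μ • w
    · obtain ⟨v, hvW, hv0⟩ := Submodule.exists_mem_ne_zero_of_ne_bot hW
      exact ⟨v, hvW, hv0, fun a => ⟨(h a).choose, (h a).choose_spec v hvW⟩⟩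
    · push Not at h
      obtain ⟨a₀, ha₀⟩ := h
      have hnt : Nontrivial W := (Submodule.nontrivial_iff_ne_bot).mpr hW
      let g : Module.End ℂ W := (ρ a₀).restrict (hstab a₀)
      obtain ⟨μ, hμ⟩ := g.exists_eigenvalue
      obtain ⟨w, hw⟩ := hμ.exists_hasEigenvector
      have hgw : g w = μ • w := hw.apply_eq_smul
      have hw0 : w ≠ 0 := hw.2
      have hgw' : ρ a₀ (w : V) = μ • (w : V) := by
        have := congrArg (Subtype.val) hgw
        simpa [g] using this
      set W' : Submodule ℂ V := W ⊓ (ρ a₀).eigenspace μ with hW'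
      have hwW' : (w : V) ∈ W' := by
        refine ⟨w.2, ?_⟩
        rw [SetLike.mem_coe, Module.End.mem_eigenspace_iff]
        exact hgw'
      have hW'bot : W' ≠ ⊥ := by
        intro hbot
        rw [hbot, Submodule.mem_bot] at hwW'
        exact hw0 (Subtype.ext hwW')
      have hW'stab : ∀ a, ∀ x ∈ W', ρ a x ∈ W' := by
        intro b x hx
        refine ⟨hstab b x hx.1, ?_⟩
        have hx2 : ρ a₀ x = μ • x := Module.End.mem_eigenspace_iff.mp hx.2
        rw [SetLike.mem_coe, Module.End.mem_eigenspace_iff, rho_comm_apply, hx2, map_smul]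
      have hlt : W' < W := by
        refine lt_of_le_of_ne inf_le_left ?_
        intro heq
        obtain ⟨w', hw'W, hw'⟩ := ha₀ μ
        rw [← heq] at hw'W
        exact hw' (Module.End.mem_eigenspace_iff.mp hw'W.2)
      have hfin : Module.finrank ℂ W' < n := hn ▸ Submodule.finrank_lt_finrank_of_lt hlt
      obtain ⟨v, hvW', hv0, hv⟩ := ih _ hfin W' rfl hW'bot hW'stab
      exact ⟨v, hlt.le hvW', hv0, hv⟩

/-- Among the simultaneous eigencharacters of a commuting family there is one whose zero locus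
is contained in a given prime ideal containing the kernel of the action. -/
theorem exists_eigenvector_zero_locus_le (ρ : A →+* Module.End ℂ V) (𝔪 : Ideal A)
    [h𝔪 : 𝔪.IsPrime] (hker : RingHom.ker ρ ≤ 𝔪) :
    ∃ (χ : A → ℂ) (v : V), v ≠ 0 ∧ (∀ a, ρ a v = χ a • v) ∧ ∀ a, χ a = 0 → a ∈ 𝔪 := by
  classical
  let f : A → Module.End ℂ V := fun a => ρ a
  have hcomm : ∀ a b, Commute (f a) (f b) := fun a b => by
    show ρ a * ρ b = ρ b * ρ a
    rw [← map_mul, ← map_mul, mul_comm]
  have hmaps : ∀ i j φ, Set.MapsTo (f i) ((f j).maxGenEigenspace φ)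
      ((f j).maxGenEigenspace φ) :=
    fun i j φ => Module.End.mapsTo_maxGenEigenspace_of_comm (hcomm j i) φ
  have htop := Module.End.iSup_iInf_maxGenEigenspace_eq_top_of_forall_mapsTo f hmaps
    (fun a => Module.End.iSup_maxGenEigenspace_eq_top (f a))
  have hind := Module.End.independent_iInf_maxGenEigenspace_of_forall_mapsTo f hmaps
  have hfin : {χ : A → ℂ | ⨅ a, (f a).maxGenEigenspace (χ a) ≠ ⊥}.Finite :=
    WellFoundedGT.finite_ne_bot_of_iSupIndep hind
  have key : ∃ χ : A → ℂ, (⨅ a, (f a).maxGenEigenspace (χ a)) ≠ ⊥ ∧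
      ∀ a, χ a = 0 → a ∈ 𝔪 := by
    by_contra hcon
    push Not at hcon
    choose! b hb0 hbm using hcon
    let X := hfin.toFinset
    let a := ∏ χ ∈ X, b χ
    have ha : a ∉ 𝔪 := by
      intro h
      obtain ⟨χ, hχX, hχ⟩ := (Ideal.IsPrime.prod_mem_iff).mp h
      exact hbm χ ((hfin.mem_toFinset).mp hχX) hχ
    set n := Module.finrank ℂ V with hn
    have hzero : ρ (a ^ n) = 0 := by
      have : LinearMap.ker (ρ (a ^ n)) = ⊤ := by
        rw [eq_top_iff, ← htop]
        apply iSup_le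
        intro χ
        by_cases hχ : (⨅ a, (f a).maxGenEigenspace (χ a)) = ⊥
        · rw [hχ]; exact bot_le
        · intro w hw
          have hχX : χ ∈ X := (hfin.mem_toFinset).mpr hχ
          obtain ⟨c, hc⟩ : b χ ∣ a := Finset.dvd_prod_of_mem _ hχX
          have hw1 : w ∈ (f (b χ)).maxGenEigenspace (χ (b χ)) :=
            (Submodule.mem_iInf _).mp hw (b χ)
          rw [hb0 χ hχ, Module.End.maxGenEigenspace_eq_genEigenspace_finrank,
            Module.End.mem_genEigenspace_nat, zero_smul, sub_zero, LinearMap.mem_ker] at hw1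
          rw [LinearMap.mem_ker, hc, mul_pow, mul_comm, map_mul, map_pow, map_pow,
            Module.End.mul_apply]
          show (ρ c ^ n) ((f (b χ) ^ n) w) = 0
          rw [hw1, map_zero]
      exact LinearMap.ker_eq_top.mp this
    have : a ^ n ∈ 𝔪 := hker (RingHom.mem_ker.mpr hzero)
    exact ha (h𝔪.mem_of_pow_mem n this)
  obtain ⟨χ, hχ, hχ𝔪⟩ := key
  have hstab : ∀ a, ∀ w ∈ (⨅ a, (f a).maxGenEigenspace (χ a)),
      ρ a w ∈ (⨅ a, (f a).maxGenEigenspace (χ a)) := by
    intro a w hw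
    rw [Submodule.mem_iInf] at hw ⊢
    intro b
    exact hmaps a b (χ b) (hw b)
  obtain ⟨v, hvW, hv0, hv⟩ := exists_common_eigenvector_in ρ _ _ rfl hχ hstab
  choose χ' hχ' using hv
  refine ⟨χ', v, hv0, hχ', fun a ha => hχ𝔪 a ?_⟩
  by_contra hne
  have hdisj := Module.End.disjoint_genEigenspace (ρ a) (μ₁ := χ a) (μ₂ := χ' a)
    (by rw [ha]; exact hne) ⊤ 1
  have h1 : v ∈ (ρ a).maxGenEigenspace (χ a) := (Submodule.mem_iInf _).mp hvW a
  have h2 : v ∈ (ρ a).genEigenspace (χ' a) 1 := Module.End.mem_genEigenspace_one.mpr (hχ' a)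
  exact hv0 (Submodule.disjoint_def.mp hdisj v h1 h2)

/-- The eigencharacter of a common eigenvector is a ring homomorphism. -/
noncomputable def eigenCharacter (ρ : A →+* Module.End ℂ V) (χ : A → ℂ) (v : V) (hv : v ≠ 0)
    (h : ∀ a, ρ a v = χ a • v) : A →+* ℂ where
  toFun := χ
  map_one' := by
    apply smul_left_injective ℂ hv
    show χ 1 • v = (1 : ℂ) • v
    rw [← h 1, map_one, Module.End.one_apply, one_smul]
  map_mul' a b := by
    apply smul_left_injective ℂ hv
    show χ (a * b) • v = (χ a * χ b) • v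
    rw [← h (a * b), map_mul, Module.End.mul_apply, h b, map_smul, h a, smul_smul, mul_comm]
  map_zero' := by
    apply smul_left_injective ℂ hv
    show χ 0 • v = (0 : ℂ) • v
    rw [← h 0, map_zero, LinearMap.zero_apply, zero_smul]
  map_add' a b := by
    apply smul_left_injective ℂ hv
    show χ (a + b) • v = (χ a + χ b) • v
    rw [← h (a + b), map_add, LinearMap.add_apply, h a, h b, add_smul]

omit [FiniteDimensional ℂ V] in
@[simp] theorem eigenCharacter_apply (ρ : A →+* Module.End ℂ V) (χ : A → ℂ) (v : V) (hv : v ≠ 0)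
    (h : ∀ a, ρ a v = χ a • v) (a : A) : eigenCharacter ρ χ v hv h a = χ a := rfl

/-- Abstract Deligne–Serre lifting lemma: a maximal ideal `𝔪` of a commutative ring `A` that is
integral over `ℤ` and acts on a finite-dimensional complex vector space with kernel inside `𝔪`
is "seen" by a common eigenvector: there is an eigencharacter `χ : A →+* ℂ` and a maximal ideal
`𝔪'` of the ring of algebraic integers such that `χ` sends `𝔪` into `𝔪'`. -/
theorem exists_eigencharacter_lift (ρ : A →+* Module.End ℂ V) (hint : ∀ a : A, IsIntegral ℤ a)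
    (𝔪 : Ideal A) [h𝔪 : 𝔪.IsMaximal] (hker : RingHom.ker ρ ≤ 𝔪) :
    ∃ (χ : A →+* ℂ) (v : V) (𝔪' : Ideal (integralClosure ℤ ℂ)), v ≠ 0 ∧
      (∀ a, ρ a v = χ a • v) ∧ 𝔪'.IsMaximal ∧
      ∀ a ∈ 𝔪, ∃ c : integralClosure ℤ ℂ, (c : ℂ) = χ a ∧ c ∈ 𝔪' := by
  haveI : 𝔪.IsPrime := h𝔪.isPrime
  obtain ⟨χ₀, v, hv0, hv, hz⟩ := exists_eigenvector_zero_locus_le ρ 𝔪 hker
  let χ : A →+* ℂ := eigenCharacter ρ χ₀ v hv0 hv
  have hχint : ∀ a, χ a ∈ integralClosure ℤ ℂ := fun a => (hint a).map χ.toIntAlgHom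
  let χ' : A →+* integralClosure ℤ ℂ := χ.codRestrict (integralClosure ℤ ℂ) hχint
  letI : Algebra A (integralClosure ℤ ℂ) := χ'.toAlgebra
  haveI : Algebra.IsIntegral A (integralClosure ℤ ℂ) :=
    ⟨fun z => IsIntegral.tower_top (R := ℤ) (integralClosure.isIntegral z)⟩
  have hk : RingHom.ker (algebraMap A (integralClosure ℤ ℂ)) ≤ 𝔪 := by
    intro a ha
    apply hz a
    have h0 : χ' a = 0 := RingHom.mem_ker.mp ha
    have := congrArg (Subtype.val) h0
    simpa [χ', χ] using this
  obtain ⟨Q, hQmax, hQ⟩ := Ideal.exists_ideal_over_maximal_of_isIntegral 𝔪 hk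
  refine ⟨χ, v, Q, hv0, hv, hQmax, fun a ha => ⟨χ' a, rfl, ?_⟩⟩
  have : a ∈ Q.comap (algebraMap A (integralClosure ℤ ℂ)) := hQ ▸ ha
  exact this

end CommonEigenvector

end Fermat.Agent.S49
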