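import Mathlib

set_option autoImplicit false

namespace Fermat.Agent.S49

open Module

/-- A commuting set of endomorphisms of a nonzero finite-dimensional vector space over an
algebraically closed field has a common eigenvector. -/
theorem exists_common_eigenvector {K : Type*} {V : Type*} [Field K] [IsAlgClosed K]
    [AddCommGroup V] [Module K V] [FiniteDimensional K V] [Nontrivial V]
    (S : Set (Module.End K V)) (hS : ∀ a ∈ S, ∀ b ∈ S, Commute a b) :
    ∃ v : V, v ≠ 0 ∧ ∀ a ∈ S, ∃ c : K, a v = c • v := by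
  induction hn : finrank K V using Nat.strong_induction_on generalizing V with
  | _ n ih =>
  by_cases hscal : ∀ a ∈ S, ∃ c : K, a = c • (1 : Module.End K V)
  · obtain ⟨v, hv⟩ := exists_ne (0 : V)
    refine ⟨v, hv, fun a ha => ?_⟩
    obtain ⟨c, rfl⟩ := hscal a ha
    exact ⟨c, by simp⟩
  · push Not at hscal
    obtain ⟨a, haS, ha⟩ := hscal
    obtain ⟨μ, hμ⟩ := Module.End.exists_eigenvalue a
    have hEbot : a.eigenspace μ ≠ ⊥ := hμ
    have hEtop : a.eigenspace μ ≠ ⊤ := by
      intro h
      apply ha μ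
      ext v
      have hv : v ∈ a.eigenspace μ := h ▸ Submodule.mem_top
      simpa using Module.End.mem_eigenspace_iff.mp hv
    have hlt : finrank K (a.eigenspace μ) < n := hn ▸ Submodule.finrank_lt hEtop
    have hmaps : ∀ b ∈ S, Set.MapsTo b (a.eigenspace μ) (a.eigenspace μ) := by
      intro b hb v hv
      have hv' : a v = μ • v := Module.End.mem_eigenspace_iff.mp hv
      apply Module.End.mem_eigenspace_iff.mpr
      have hc : a (b v) = b (a v) := by
        have := (hS a haS b hb).eq
        exact LinearMap.congr_fun this v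
      rw [hc, hv', map_smul]
    let S' : Set (Module.End K (a.eigenspace μ)) :=
      {b' | ∃ b, ∃ hb : b ∈ S, b' = b.restrict (hmaps b hb)}
    have : Nontrivial (a.eigenspace μ) := Submodule.nontrivial_iff_ne_bot.mpr hEbot
    have hS' : ∀ x ∈ S', ∀ y ∈ S', Commute x y := by
      rintro _ ⟨x, hx, rfl⟩ _ ⟨y, hy, rfl⟩
      refine LinearMap.ext fun v => Subtype.ext ?_
      have := LinearMap.congr_fun (hS x hx y hy).eq (v : V)
      exact this
    obtain ⟨v', hv', hv'S⟩ := ih (finrank K (a.eigenspace μ)) hlt S' hS' rfl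
    refine ⟨v', by simpa using hv', fun b hb => ?_⟩
    obtain ⟨c, hc⟩ := hv'S (b.restrict (hmaps b hb)) ⟨b, hb, rfl⟩
    refine ⟨c, ?_⟩
    have := congrArg Subtype.val hc
    exact this

end Fermat.Agent.S49

namespace Fermat.Agent.S49

open Module

/-- An eigenvector with eigenvalue `c` lying in the maximal generalised eigenspace for `μ`
forces `c = μ`. -/
theorem eigenvalue_eq_of_mem_maxGenEigenspace {K V : Type*} [Field K] [AddCommGroup V] [Module K V]
    (f : Module.End K V) {c μ : K} {v : V} (hv : v ≠ 0) (hc : f v = c • v)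
    (hμ : v ∈ f.maxGenEigenspace μ) : c = μ := by
  by_contra hne
  have h1 : v ∈ f.maxGenEigenspace c :=
    Module.End.eigenspace_le_maxGenEigenspace (Module.End.mem_eigenspace_iff.mpr hc)
  have hdisj := Module.End.disjoint_genEigenspace f hne ⊤ ⊤
  exact hv (Submodule.disjoint_def.mp hdisj v h1 hμ)

/-- Key linear-algebra statement behind the Deligne–Serre lifting lemma: a commutative ring acting
faithfully on a finite-dimensional space over an algebraically closed field has, below any given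
prime, the kernel of a character carried by a genuine common eigenvector. -/
theorem exists_character_ker_le_prime {K V R : Type*} [Field K] [IsAlgClosed K] [AddCommGroup V]
    [Module K V] [FiniteDimensional K V] [CommRing R] (ρ : R →+* Module.End K V)
    (hρ : Function.Injective ρ) (𝔪 : Ideal R) [h𝔪 : 𝔪.IsPrime] :
    ∃ (χ : R →+* K) (v : V), v ≠ 0 ∧ (∀ t, ρ t v = χ t • v) ∧ RingHom.ker χ ≤ 𝔪 := by
  classical
  have hcomm : ∀ s t : R, Commute (ρ s) (ρ t) := fun s t => by
    rw [commute_iff_eq, ← map_mul, ← map_mul, mul_comm]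
  set W : (R → K) → Submodule K V := fun χ => ⨅ t, (ρ t).maxGenEigenspace (χ t) with hW
  have hdecomp : ⨆ χ : R → K, W χ = ⊤ :=
    Module.End.iSup_iInf_maxGenEigenspace_eq_top_of_forall_mapsTo (fun t => ρ t)
      (fun i j φ => Module.End.mapsTo_maxGenEigenspace_of_comm (hcomm j i) φ)
      (fun t => Module.End.iSup_maxGenEigenspace_eq_top (ρ t))
  have hindep : iSupIndep W :=
    Module.End.independent_iInf_maxGenEigenspace_of_forall_mapsTo (fun t => ρ t)
      (fun i j φ => Module.End.mapsTo_maxGenEigenspace_of_comm (hcomm j i) φ)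
  have hfin : {χ | W χ ≠ ⊥}.Finite := WellFoundedGT.finite_ne_bot_of_iSupIndep hindep
  -- Step A/B: a nonzero simultaneous generalised eigenspace yields a genuine character.
  have stepAB : ∀ χ₀ : R → K, W χ₀ ≠ ⊥ →
      ∃ (χ : R →+* K) (v : V), (⇑χ = χ₀) ∧ v ≠ 0 ∧ (∀ t, ρ t v = χ t • v) := by
    intro χ₀ hχ₀
    have hmaps : ∀ t, Set.MapsTo (ρ t) (W χ₀) (W χ₀) := by
      intro t v hv
      simp only [hW, Submodule.coe_iInf, Set.mem_iInter, SetLike.mem_coe] at hv ⊢
      intro s
      exact Module.End.mapsTo_maxGenEigenspace_of_comm (hcomm s t) (χ₀ s) (hv s)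
    have hnt : Nontrivial (W χ₀) := Submodule.nontrivial_iff_ne_bot.mpr hχ₀
    obtain ⟨v', hv', hv'S⟩ := exists_common_eigenvector
      (Set.range fun t => (ρ t).restrict (hmaps t)) (by
        rintro _ ⟨s, rfl⟩ _ ⟨t, rfl⟩
        refine LinearMap.ext fun v => Subtype.ext ?_
        exact LinearMap.congr_fun (hcomm s t).eq (v : V))
    have hvne : (v' : V) ≠ 0 := by simpa using hv'
    have heig : ∀ t, ρ t (v' : V) = χ₀ t • (v' : V) := by
      intro t
      obtain ⟨c, hc⟩ := hv'S _ ⟨t, rfl⟩
      have hc' : ρ t (v' : V) = c • (v' : V) := congrArg Subtype.val hc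
      have hmem : (v' : V) ∈ (ρ t).maxGenEigenspace (χ₀ t) := by
        have := v'.2
        simp only [hW, Submodule.mem_iInf] at this
        exact this t
      rw [hc', eigenvalue_eq_of_mem_maxGenEigenspace (ρ t) hvne hc' hmem]
    have hinj := smul_left_injective K hvne
    refine ⟨{ toFun := χ₀
              map_one' := hinj ?_
              map_mul' := fun s t => hinj ?_
              map_zero' := hinj ?_
              map_add' := fun s t => hinj ?_ }, (v' : V), rfl, hvne, heig⟩
    · simp only [← heig, map_one, Module.End.one_apply, one_smul]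
    · show χ₀ (s * t) • (v' : V) = (χ₀ s * χ₀ t) • (v' : V)
      rw [← heig, map_mul, Module.End.mul_apply, heig t, map_smul, heig s, smul_smul, mul_comm]
    · simp only [← heig, map_zero, LinearMap.zero_apply, zero_smul]
    · simp only [← heig, map_add, LinearMap.add_apply, add_smul]
  by_contra hcon
  push Not at hcon
  have key : ∀ χ₀ : R → K, W χ₀ ≠ ⊥ → ∃ t : R, χ₀ t = 0 ∧ t ∉ 𝔪 := by
    intro χ₀ hχ₀
    obtain ⟨χ, v, hχ, hv, heig⟩ := stepAB χ₀ hχ₀
    have := hcon χ v hv heig
    obtain ⟨t, ht, ht'⟩ := SetLike.not_le_iff_exists.mp this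
    exact ⟨t, by rw [← hχ]; exact ht, ht'⟩
  choose! τ hτ using key
  set tstar : R := ∏ χ₀ ∈ hfin.toFinset, τ χ₀ with htstar
  have hnotmem : tstar ∉ 𝔪 := by
    rw [htstar, Ideal.IsPrime.prod_mem_iff]
    rintro ⟨χ₀, hχ₀, hmem⟩
    exact (hτ χ₀ (hfin.mem_toFinset.mp hχ₀)).2 hmem
  have hle : ∀ χ₀ : R → K, W χ₀ ≤ (ρ tstar).maxGenEigenspace 0 := by
    intro χ₀
    by_cases hχ₀ : W χ₀ = ⊥
    · rw [hχ₀]; exact bot_le
    · obtain ⟨χ, v, hχ, hv, heig⟩ := stepAB χ₀ hχ₀
      have h0 : χ₀ tstar = 0 := by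
        rw [← hχ, htstar, map_prod]
        apply Finset.prod_eq_zero (hfin.mem_toFinset.mpr hχ₀)
        rw [hχ]
        exact (hτ χ₀ hχ₀).1
      calc W χ₀ ≤ (ρ tstar).maxGenEigenspace (χ₀ tstar) := iInf_le _ tstar
        _ = (ρ tstar).maxGenEigenspace 0 := by rw [h0]
  have htop : (ρ tstar).maxGenEigenspace 0 = ⊤ := by
    rw [eq_top_iff, ← hdecomp]
    exact iSup_le hle
  have hnil : IsNilpotent (ρ tstar) := by
    apply ((LinearMap.charpoly_nilpotent_tfae (ρ tstar)).out 2 0).mp
    intro m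
    have hm : m ∈ (ρ tstar).maxGenEigenspace 0 := htop ▸ Submodule.mem_top
    obtain ⟨k, hk⟩ := (Module.End.mem_maxGenEigenspace _ _ _).mp hm
    exact ⟨k, by simpa using hk⟩
  obtain ⟨k, hk⟩ := hnil
  have hk' : tstar ^ k = 0 := hρ (by rw [map_pow, hk, map_zero])
  exact hnotmem (h𝔪.mem_of_pow_mem k (hk' ▸ 𝔪.zero_mem))

end Fermat.Agent.S49
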