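import Fermat.Statements.S49
import Fermat.Prelude.Thm_CuspForm_intLattice_fg
import Fermat.Prelude.Thm_CuspForm_mem_intLattice_of_mem_heckeAlgebra
import Fermat.Prelude.Thm_ModularFormClass_qCoeff_heckeT
import Fermat.Prelude.Thm_ModularFormClass_qCoeff_heckeU
import Fermat.Prelude.Thm_UpperHalfPlane_eq_of_forall_qCoeff_eq
import Fermat.Prelude.Thm_CongruenceSubgroup_one_mem_strictPeriods_Gamma0

set_option autoImplicit false

noncomputable section

open UpperHalfPlane ModularFormClass CongruenceSubgroup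

namespace Fermat.Agent.S49

variable {N : ℕ} {k : ℤ}

theorem hΓ0 (N : ℕ) :
    (1 : ℝ) ∈ (Subgroup.map (Matrix.SpecialLinearGroup.mapGL ℝ) (Gamma0 N)).strictPeriods :=
  CongruenceSubgroup.one_mem_strictPeriods_Gamma0 N

theorem qCoeff_add (f g : CuspForm (Gamma0 N) k) (n : ℕ) :
    qCoeff ⇑(f + g) n = qCoeff ⇑f n + qCoeff ⇑g n := by
  simp only [qCoeff, FunLike.coe_add]
  rw [ModularForm.qExpansion_add one_pos (hΓ0 N) f g, map_add]

theorem qCoeff_smul (c : ℂ) (f : CuspForm (Gamma0 N) k) (n : ℕ) :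
    qCoeff ⇑(c • f) n = c * qCoeff ⇑f n := by
  have h1 : ⇑(c • f) = c • ⇑f := by
    ext z
    simp
  simp only [qCoeff, h1]
  rw [ModularForm.qExpansion_smul one_pos (hΓ0 N) c f]
  simp

theorem qCoeff_zero_form (n : ℕ) : qCoeff ⇑(0 : CuspForm (Gamma0 N) k) n = 0 := by
  simp only [qCoeff, FunLike.coe_zero]
  rw [UpperHalfPlane.qExpansion_zero, map_zero]

theorem qCoeff_neg (f : CuspForm (Gamma0 N) k) (n : ℕ) :
    qCoeff ⇑(-f) n = -qCoeff ⇑f n := by
  have : -f = (-1 : ℂ) • f := by simp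
  rw [this, qCoeff_smul]; ring

theorem qCoeff_sub (f g : CuspForm (Gamma0 N) k) (n : ℕ) :
    qCoeff ⇑(f - g) n = qCoeff ⇑f n - qCoeff ⇑g n := by
  rw [sub_eq_add_neg, qCoeff_add, qCoeff_neg, ← sub_eq_add_neg]

theorem qCoeff_zsmul (c : ℤ) (f : CuspForm (Gamma0 N) k) (n : ℕ) :
    qCoeff ⇑(c • f) n = c * qCoeff ⇑f n := by
  have : c • f = (c : ℂ) • f := by
    ext z; simp
  rw [this, qCoeff_smul]

/-- The constant coefficient of a cusp form vanishes. -/
theorem qCoeff_zero_idx (f : CuspForm (Gamma0 N) k) : qCoeff ⇑f 0 = 0 := by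
  simp only [qCoeff]
  exact CuspFormClass.qExpansion_coeff_zero f one_pos (hΓ0 N)

/-- Cusp forms on `Γ₀(N)` are determined by their `q`-coefficients. -/
theorem ext_qCoeff {f g : CuspForm (Gamma0 N) k} (h : ∀ n, qCoeff ⇑f n = qCoeff ⇑g n) : f = g := by
  apply DFunLike.coe_injective
  have : Fact (IsCusp OnePoint.infty (Subgroup.map (Matrix.SpecialLinearGroup.mapGL ℝ) (Gamma0 N))) :=
    ⟨Subgroup.isCusp_of_mem_strictPeriods one_pos (hΓ0 N)⟩
  exact UpperHalfPlane.eq_of_forall_qCoeff_eq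
    (SlashInvariantFormClass.periodic_comp_ofComplex f (hΓ0 N)) (CuspFormClass.holo f)
    (ModularFormClass.bdd_at_infty f)
    (SlashInvariantFormClass.periodic_comp_ofComplex g (hΓ0 N)) (CuspFormClass.holo g)
    (ModularFormClass.bdd_at_infty g) h

theorem qCoeff_heckeTLin {ℓ : ℕ} (hℓ : ℓ.Prime) (hℓN : ¬ ℓ ∣ N) (f : CuspForm (Gamma0 N) k)
    (n : ℕ) :
    qCoeff ⇑(CuspForm.heckeTLin k hℓ hℓN f) n =
      qCoeff ⇑f (n * ℓ) + if ℓ ∣ n then (ℓ : ℂ) ^ (k - 1) * qCoeff ⇑f (n / ℓ) else 0 := by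
  rw [CuspForm.coe_heckeTLin_apply, ModularFormClass.qCoeff_heckeT f (hΓ0 N) hℓ.ne_zero n]
  rfl

theorem qCoeff_heckeULin [NeZero N] {q : ℕ} (hq : q.Prime) (hqN : q ∣ N)
    (f : CuspForm (Gamma0 N) k) (n : ℕ) :
    qCoeff ⇑(CuspForm.heckeULin k hqN f) n = qCoeff ⇑f (n * q) := by
  rw [CuspForm.coe_heckeULin_apply, ModularFormClass.qCoeff_heckeU f (hΓ0 N) hq.ne_zero n]
  rfl

theorem mem_intLattice_iff (f : CuspForm (Gamma0 N) k) :
    f ∈ CuspForm.intLattice N k ↔ ∀ n : ℕ, ∃ m : ℤ, qCoeff ⇑f n = (m : ℂ) :=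
  P2MW.S_CuspForm_intLattice_fg.W3WsD.mem_intLattice_iff f

theorem mem_qIntegralSet_iff (f : CuspForm (Gamma0 N) 2) :
    f ∈ CuspForm.qIntegralSet N ↔ f ∈ CuspForm.intLattice N 2 := by
  rw [mem_intLattice_iff]
  simp only [CuspForm.qIntegralSet, Set.mem_setOf_eq, Subring.mem_bot]
  exact forall_congr' fun n => exists_congr fun m => eq_comm

theorem qIntegralSet_eq (N : ℕ) :
    CuspForm.qIntegralSet N = (CuspForm.intLattice N 2 : Set (CuspForm (Gamma0 N) 2)) := by
  ext f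
  exact mem_qIntegralSet_iff f

/-- Under `HasIntegralBasis`, the complex span of the integral lattice is everything. -/
theorem span_intLattice_eq_top (h : CuspForm.HasIntegralBasis N) :
    Submodule.span ℂ (CuspForm.intLattice N 2 : Set (CuspForm (Gamma0 N) 2)) = ⊤ := by
  rw [← qIntegralSet_eq]; exact h

theorem finiteDimensional_of_hasIntegralBasis [NeZero N] (h : CuspForm.HasIntegralBasis N) :
    FiniteDimensional ℂ (CuspForm (Gamma0 N) 2) := by
  obtain ⟨s, hs⟩ := CuspForm.intLattice_fg N 2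
  refine ⟨⟨s, ?_⟩⟩
  rw [eq_top_iff, ← span_intLattice_eq_top h, Submodule.span_le, ← hs]
  exact Submodule.span_subset_span ℤ ℂ _

instance instModuleFiniteIntLattice [NeZero N] : Module.Finite ℤ (CuspForm.intLattice N k) :=
  Module.Finite.iff_fg.mpr (CuspForm.intLattice_fg N k)

/-- Restriction of Hecke operators to the integral lattice, as a `ℤ`-algebra map. -/
def resLattice (N : ℕ) [NeZero N] (S : Set ℕ) :
    CuspForm.heckeAlgebra N 2 S →ₐ[ℤ] Module.End ℤ (CuspForm.intLattice N 2) where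
  toFun t := ((t : Module.End ℂ (CuspForm (Gamma0 N) 2)).restrictScalars ℤ).restrict
    (fun _ hf => CuspForm.mem_intLattice_of_mem_heckeAlgebra one_le_two t.2 hf)
  map_one' := by ext; rfl
  map_mul' := by intros; ext; rfl
  map_zero' := by ext; rfl
  map_add' := by intros; ext; rfl
  commutes' := by
    intro r
    refine LinearMap.ext fun f => Subtype.ext ?_
    simp [Algebra.algebraMap_eq_smul_one]

theorem resLattice_apply_coe [NeZero N] (S : Set ℕ) (t : CuspForm.heckeAlgebra N 2 S)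
    (f : CuspForm.intLattice N 2) :
    ((resLattice N S t f : CuspForm.intLattice N 2) : CuspForm (Gamma0 N) 2) =
      (t : Module.End ℂ (CuspForm (Gamma0 N) 2)) (f : CuspForm (Gamma0 N) 2) := rfl

theorem resLattice_injective [NeZero N] (h : CuspForm.HasIntegralBasis N) (S : Set ℕ) :
    Function.Injective (resLattice N S) := by
  intro t₁ t₂ ht
  apply Subtype.ext
  apply LinearMap.ext_on (span_intLattice_eq_top h)
  intro f hf
  have := congrArg (fun e : Module.End ℤ (CuspForm.intLattice N 2) =>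
    ((e ⟨f, hf⟩ : CuspForm.intLattice N 2) : CuspForm (Gamma0 N) 2)) ht
  exact this

/-- Every element of the Hecke algebra is integral over `ℤ`. -/
theorem isIntegral_heckeAlgebra [NeZero N] (h : CuspForm.HasIntegralBasis N) (S : Set ℕ)
    (t : CuspForm.heckeAlgebra N 2 S) : IsIntegral ℤ t :=
  (isIntegral_algHom_iff (resLattice N S) (resLattice_injective h S)).mp
    (Algebra.IsIntegral.isIntegral (R := ℤ) (resLattice N S t))

end Fermat.Agent.S49
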