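import Mathlib
import Fermat.Prelude.Def_FormalHecke_Eigensystem

set_option autoImplicit false

namespace Fermat.Agent.S49

open FormalHecke

variable {R : Type*} [CommRing R] {e a : ℕ → R}

theorem eigensystem_prime_pow_succ_succ (h : IsEigensystem e a) {ℓ : ℕ} (hℓ : ℓ.Prime) (r : ℕ) :
    a (ℓ ^ (r + 2)) = a ℓ * a (ℓ ^ (r + 1)) - e ℓ * a (ℓ ^ r) := by
  have key := h.2 ℓ hℓ (ℓ ^ (r + 1))
  have e1 : ℓ * ℓ ^ (r + 1) = ℓ ^ (r + 2) := (pow_succ' ℓ (r + 1)).symm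
  have e2 : ℓ ^ (r + 1) / ℓ = ℓ ^ r := by
    rw [pow_succ]; exact Nat.mul_div_cancel _ hℓ.pos
  rw [if_pos (dvd_pow_self ℓ (Nat.succ_ne_zero r)), e1, e2] at key
  rw [← key]; ring

theorem eigensystem_prime_pow_mul (h : IsEigensystem e a) {ℓ : ℕ} (hℓ : ℓ.Prime) {n : ℕ}
    (hn : ¬ ℓ ∣ n) (r : ℕ) : a (ℓ ^ r * n) = a (ℓ ^ r) * a n := by
  induction r using Nat.strong_induction_on with
  | _ r ih =>
  match r, ih with
  | 0, _ => simp [h.1]
  | 1, _ =>
    have := h.2 ℓ hℓ n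
    rw [if_neg hn, mul_zero, add_zero] at this
    simpa using this
  | r + 2, ih =>
    have h1 : a (ℓ ^ (r + 1) * n) = a (ℓ ^ (r + 1)) * a n := ih (r + 1) (by omega)
    have h0 : a (ℓ ^ r * n) = a (ℓ ^ r) * a n := ih r (by omega)
    have key := h.2 ℓ hℓ (ℓ ^ (r + 1) * n)
    have e1 : ℓ * (ℓ ^ (r + 1) * n) = ℓ ^ (r + 2) * n := by
      rw [← mul_assoc, ← pow_succ']
    have e2 : ℓ ^ (r + 1) * n / ℓ = ℓ ^ r * n := by
      rw [pow_succ, mul_assoc, mul_comm ℓ n, ← mul_assoc]; exact Nat.mul_div_cancel _ hℓ.pos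
    rw [if_pos (Dvd.dvd.mul_right (dvd_pow_self ℓ (Nat.succ_ne_zero r)) n), e1, e2, h0, h1] at key
    rw [eigensystem_prime_pow_succ_succ h hℓ r]
    have h2 : a (ℓ ^ (r + 2) * n) = a ℓ * (a (ℓ ^ (r + 1)) * a n) - e ℓ * (a (ℓ ^ r) * a n) := by
      rw [← key]; ring
    rw [h2]; ring

theorem eigensystem_isRecursive (h : IsEigensystem e a) : IsRecursive e a := by
  refine ⟨h.1, ?_, fun ℓ r hℓ => eigensystem_prime_pow_succ_succ h hℓ r⟩
  intro m
  induction m using Nat.recOnPrimeCoprime with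
  | zero =>
    intro n hn
    rw [Nat.coprime_zero_left] at hn
    subst hn
    simp [h.1]
  | prime_pow p k hp =>
    intro n hn
    rcases Nat.eq_zero_or_pos k with rfl | hk
    · simp [h.1]
    · have hpn : ¬ p ∣ n := by
        intro hdvd
        have : p ∣ Nat.gcd (p ^ k) n := Nat.dvd_gcd (dvd_pow_self p hk.ne') hdvd
        rw [hn] at this
        exact hp.one_lt.ne' (Nat.dvd_one.mp this)
      exact eigensystem_prime_pow_mul h hp hpn k
  | coprime x y _ _ hxy hx hy =>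
    intro n hn
    have hxn : Nat.Coprime x n := Nat.Coprime.coprime_mul_right hn
    have hyn : Nat.Coprime y n := Nat.Coprime.coprime_mul_left hn
    rw [mul_assoc, hx (y * n) (Nat.Coprime.mul_right hxy hxn), hy n hyn, hx y hxy, mul_assoc]

end Fermat.Agent.S49
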