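import Fermat.Agent.S49.Lattice
import Fermat.Agent.S49.Recursive

set_option autoImplicit false

noncomputable section

open UpperHalfPlane ModularFormClass CongruenceSubgroup

namespace Fermat.Agent.S49

/-- If a sequence satisfies the Hecke relations at all primes and its first term vanishes, then all
its terms of positive index vanish. -/
theorem hecke_vanish_of_one_eq_zero {R : Type*} [CommRing R] {e lam b : ℕ → R}
    (hR : ∀ ℓ : ℕ, ℓ.Prime → ∀ n : ℕ,
      b (ℓ * n) + e ℓ * (if ℓ ∣ n then b (n / ℓ) else 0) = lam ℓ * b n)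
    (h1 : b 1 = 0) : ∀ n : ℕ, 1 ≤ n → b n = 0 := by
  intro n
  induction n using Nat.strong_induction_on with
  | _ n ih =>
  intro hn
  rcases eq_or_lt_of_le hn with rfl | hn2
  · exact h1
  · have hne : n ≠ 1 := hn2.ne'
    have hℓ : (n.minFac).Prime := Nat.minFac_prime hne
    set ℓ := n.minFac with hℓdef
    have hdvd : ℓ ∣ n := Nat.minFac_dvd n
    have hnm : ℓ * (n / ℓ) = n := Nat.mul_div_cancel' hdvd
    have hmpos : 1 ≤ n / ℓ := Nat.div_pos (Nat.le_of_dvd (by omega) hdvd) hℓ.pos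
    have hmlt : n / ℓ < n := Nat.div_lt_self (by omega) hℓ.one_lt
    have key := hR ℓ hℓ (n / ℓ)
    rw [hnm, ih (n / ℓ) hmlt hmpos, mul_zero] at key
    by_cases hd : ℓ ∣ n / ℓ
    · have h2pos : 1 ≤ n / ℓ / ℓ := Nat.div_pos (Nat.le_of_dvd hmpos hd) hℓ.pos
      have h2lt : n / ℓ / ℓ < n := lt_of_le_of_lt (Nat.div_le_self _ _) hmlt
      rw [if_pos hd, ih _ h2lt h2pos, mul_zero, add_zero] at key
      exact key
    · rw [if_neg hd, mul_zero, add_zero] at key
      exact key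

variable {N : ℕ}

/-- A simultaneous eigenvector of the full Hecke algebra can be normalised to a normalised
eigenform whose prime coefficients are the eigenvalues. -/
theorem exists_normalizedEigenform_of_eigenvector [NeZero N]
    (χ : CuspForm.heckeAlgebra N 2 (∅ : Set ℕ) →+* ℂ) (v : CuspForm (Gamma0 N) 2) (hv : v ≠ 0)
    (heig : ∀ t : CuspForm.heckeAlgebra N 2 (∅ : Set ℕ),
      (t : Module.End ℂ (CuspForm (Gamma0 N) 2)) v = χ t • v) :
    ∃ g : CuspForm (Gamma0 N) 2, g.IsNormalizedEigenform ∧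
      ∀ (ℓ : ℕ) (hℓ : ℓ.Prime) (hℓN : ¬ ℓ ∣ N),
        qCoeff ⇑g ℓ = χ (CuspForm.heckeAlgebra.T hℓ hℓN (Set.notMem_empty ℓ)) := by
  classical
  set e : ℕ → ℂ := fun ℓ => if ℓ ∣ N then 0 else (ℓ : ℂ) with he
  set lam : ℕ → ℂ := fun ℓ =>
    if hℓ : ℓ.Prime then
      (if hℓN : ℓ ∣ N then χ (CuspForm.heckeAlgebra.U hℓ hℓN (Set.notMem_empty ℓ))
        else χ (CuspForm.heckeAlgebra.T hℓ hℓN (Set.notMem_empty ℓ)))
    else 0 with hlam
  -- the Hecke relations for an arbitrary scalar multiple of `v`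
  have hrel : ∀ (c : ℂ) (ℓ : ℕ), ℓ.Prime → ∀ n : ℕ,
      qCoeff ⇑(c • v) (ℓ * n) + e ℓ * (if ℓ ∣ n then qCoeff ⇑(c • v) (n / ℓ) else 0) =
        lam ℓ * qCoeff ⇑(c • v) n := by
    intro c ℓ hℓ n
    simp only [qCoeff_smul]
    by_cases hℓN : ℓ ∣ N
    · have h1 := congrArg (fun w : CuspForm (Gamma0 N) 2 => qCoeff ⇑w n)
        (heig (CuspForm.heckeAlgebra.U hℓ hℓN (Set.notMem_empty ℓ)))
      simp only [CuspForm.heckeAlgebra.coe_U, qCoeff_heckeULin hℓ, qCoeff_smul] at h1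
      simp only [he, hlam, dif_pos hℓ, dif_pos hℓN, if_pos hℓN, zero_mul, add_zero]
      rw [mul_comm ℓ n, h1]; ring
    · have h1 := congrArg (fun w : CuspForm (Gamma0 N) 2 => qCoeff ⇑w n)
        (heig (CuspForm.heckeAlgebra.T hℓ hℓN (Set.notMem_empty ℓ)))
      simp only [CuspForm.heckeAlgebra.coe_T, qCoeff_heckeTLin, qCoeff_smul] at h1
      simp only [he, hlam, dif_pos hℓ, dif_neg hℓN, if_neg hℓN]
      rw [mul_comm ℓ n]
      have h2 : ((2 : ℤ) - 1) = 1 := by norm_num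
      rw [h2, zpow_one] at h1
      split_ifs at h1 ⊢ with hd
      · linear_combination c * h1
      · linear_combination c * h1
  -- the first coefficient is nonzero
  have hb1 : qCoeff ⇑v 1 ≠ 0 := by
    intro h0
    apply hv
    apply ext_qCoeff
    intro n
    rw [qCoeff_zero_form]
    rcases Nat.eq_zero_or_pos n with rfl | hn
    · exact qCoeff_zero_idx v
    · have hrel1 := hrel 1
      simp only [one_smul] at hrel1
      exact hecke_vanish_of_one_eq_zero hrel1 h0 n hn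
  set g : CuspForm (Gamma0 N) 2 := (qCoeff ⇑v 1)⁻¹ • v with hg
  have hg1 : qCoeff ⇑g 1 = 1 := by
    rw [hg, qCoeff_smul, inv_mul_cancel₀ hb1]
  have hgrel := hrel (qCoeff ⇑v 1)⁻¹
  rw [← hg] at hgrel
  have hlam_eq : ∀ ℓ : ℕ, ℓ.Prime → lam ℓ = qCoeff ⇑g ℓ := by
    intro ℓ hℓ
    have := hgrel ℓ hℓ 1
    rw [if_neg (by simpa using hℓ.one_lt.ne' : ¬ ℓ ∣ 1), mul_zero, add_zero, mul_one, hg1,
      mul_one] at this
    exact this.symm
  have hsys : FormalHecke.IsEigensystem e (fun n => qCoeff ⇑g n) := by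
    refine ⟨hg1, fun ℓ hℓ n => ?_⟩
    show qCoeff ⇑g (ℓ * n) + e ℓ * (if ℓ ∣ n then qCoeff ⇑g (n / ℓ) else 0) =
      qCoeff ⇑g ℓ * qCoeff ⇑g n
    rw [← hlam_eq ℓ hℓ]
    exact hgrel ℓ hℓ n
  obtain ⟨-, hmul, hpow⟩ := eigensystem_isRecursive hsys
  refine ⟨g, ⟨hg1, hmul, ?_, ?_⟩, ?_⟩
  · intro p r hp hpN
    have := hpow p r hp
    simpa only [he, if_neg hpN] using this
  · intro p r hp hpN
    have := hpow p r hp
    simpa only [he, if_pos hpN, zero_mul, sub_zero] using this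
  · intro ℓ hℓ hℓN
    rw [← hlam_eq ℓ hℓ]
    simp only [hlam, dif_pos hℓ, dif_neg hℓN]

end Fermat.Agent.S49
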