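import Mathlib

set_option autoImplicit false

namespace Fermat.Agent.S49

/-- Lying over for a character with integral values: a maximal ideal containing the kernel of
`χ : R →+* ℂ` is the contraction of a maximal ideal of the ring of algebraic integers. -/
theorem exists_maximal_integralClosure_over {R : Type*} [CommRing R] (χ : R →+* ℂ)
    (hint : ∀ t, IsIntegral ℤ (χ t)) (𝔪 : Ideal R) [h𝔪 : 𝔪.IsMaximal]
    (hker : RingHom.ker χ ≤ 𝔪) :
    ∃ 𝔪' : Ideal (integralClosure ℤ ℂ), 𝔪'.IsMaximal ∧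
      ∀ t ∈ 𝔪, (⟨χ t, hint t⟩ : integralClosure ℤ ℂ) ∈ 𝔪' := by
  let χ' : R →+* integralClosure ℤ ℂ := RingHom.codRestrict χ (integralClosure ℤ ℂ) hint
  letI : Algebra R (integralClosure ℤ ℂ) := χ'.toAlgebra
  have hint' : Algebra.IsIntegral R (integralClosure ℤ ℂ) :=
    ⟨fun x => IsIntegral.tower_top (R := ℤ) (A := R) (integralClosure.isIntegral x)⟩
  have hker' : RingHom.ker (algebraMap R (integralClosure ℤ ℂ)) ≤ 𝔪 := by
    intro t ht
    apply hker
    rw [RingHom.mem_ker] at ht ⊢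
    have : (χ' t : ℂ) = 0 := by
      have h2 : algebraMap R (integralClosure ℤ ℂ) t = χ' t := rfl
      rw [← h2, ht]; rfl
    exact this
  obtain ⟨Q, hQ, hQ'⟩ := Ideal.exists_ideal_over_maximal_of_isIntegral
    (S := integralClosure ℤ ℂ) 𝔪 hker'
  refine ⟨Q, hQ, fun t ht => ?_⟩
  have : t ∈ Ideal.comap (algebraMap R (integralClosure ℤ ℂ)) Q := hQ'.symm ▸ ht
  exact this

end Fermat.Agent.S49
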