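import Fermat.Agent.S49.Lattice

set_option autoImplicit false

noncomputable section

open UpperHalfPlane ModularFormClass CongruenceSubgroup EisensteinWeightOne

namespace Fermat.Agent.S49

/-- `χ₋₃(ℓ) ≡ ℓ (mod 3)`. -/
theorem three_dvd_cast_sub_chiNegThree (ℓ : ℕ) : (3 : ℤ) ∣ (ℓ : ℤ) - chiNegThree ℓ := by
  unfold chiNegThree
  have h3 : ℓ % 3 < 3 := Nat.mod_lt _ (by norm_num)
  have hdiv : (ℓ : ℤ) = 3 * (ℓ / 3 : ℕ) + (ℓ % 3 : ℕ) := by
    exact_mod_cast (Nat.div_add_mod ℓ 3).symm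
  interval_cases hr : ℓ % 3
  · simp only [zero_ne_one, if_false, OfNat.zero_ne_ofNat]
    rw [hdiv]; exact ⟨(ℓ / 3 : ℕ), by push_cast; ring⟩
  · simp only [if_true]
    rw [hdiv]; exact ⟨(ℓ / 3 : ℕ), by push_cast; ring⟩
  · simp only [OfNat.ofNat_ne_one, if_false, if_true]
    rw [hdiv]; exact ⟨(ℓ / 3 : ℕ) + 1, by push_cast; ring⟩

/-- The weight-one Eisenstein series `E_{1,χ₋₃}` is `≡ 1 (mod 3)`, so multiplying by it does not
change coefficients modulo `3`. -/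
theorem three_dvd_coeff_bridgeProduct_sub (a : ℕ → ℤ) (n : ℕ) :
    (3 : ℤ) ∣ (bridgeProduct a).coeff n - a n := by
  have hE : e1Chi3In ℤ = 1 + PowerSeries.C (3 : ℤ) *
      PowerSeries.mk (fun n => if n = 0 then 0 else 2 * sigmaChi n) := by
    ext m
    simp only [e1Chi3In, e1Chi3, PowerSeries.coeff_map, PowerSeries.coeff_mk, map_add,
      PowerSeries.coeff_one, PowerSeries.coeff_C_mul, Int.coe_castRingHom, Int.cast_id]
    split_ifs <;> simp
    ring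
  have : bridgeProduct a = PowerSeries.mk a + PowerSeries.C (3 : ℤ) *
      (PowerSeries.mk a * PowerSeries.mk (fun n => if n = 0 then 0 else 2 * sigmaChi n)) := by
    rw [bridgeProduct, hE]; ring
  rw [this, map_add, PowerSeries.coeff_mk, PowerSeries.coeff_C_mul, add_sub_cancel_left]
  exact dvd_mul_right _ _

variable {N : ℕ}

/-- A cusp form is "divisible by 3" when all its `q`-coefficients are `3` times an integer. -/
def Div3 (g : CuspForm (Gamma0 N) 2) : Prop :=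
  ∀ n : ℕ, ∃ m : ℤ, qCoeff ⇑g n = 3 * (m : ℂ)

theorem div3_zero : Div3 (0 : CuspForm (Gamma0 N) 2) := fun n =>
  ⟨0, by rw [qCoeff_zero_form]; simp⟩

theorem Div3.add {g₁ g₂ : CuspForm (Gamma0 N) 2} (h₁ : Div3 g₁) (h₂ : Div3 g₂) :
    Div3 (g₁ + g₂) := fun n => by
  obtain ⟨m₁, hm₁⟩ := h₁ n
  obtain ⟨m₂, hm₂⟩ := h₂ n
  exact ⟨m₁ + m₂, by rw [qCoeff_add, hm₁, hm₂]; push_cast; ring⟩

theorem Div3.zsmul {g : CuspForm (Gamma0 N) 2} (h : Div3 g) (c : ℤ) : Div3 (c • g) := fun n => by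
  obtain ⟨m, hm⟩ := h n
  exact ⟨c * m, by rw [qCoeff_zsmul, hm]; push_cast; ring⟩

theorem Div3.neg {g : CuspForm (Gamma0 N) 2} (h : Div3 g) : Div3 (-g) := fun n => by
  obtain ⟨m, hm⟩ := h n
  exact ⟨-m, by rw [qCoeff_neg, hm]; push_cast; ring⟩

theorem Div3.sub {g₁ g₂ : CuspForm (Gamma0 N) 2} (h₁ : Div3 g₁) (h₂ : Div3 g₂) :
    Div3 (g₁ - g₂) := by
  rw [sub_eq_add_neg]; exact h₁.add h₂.neg

/-- A form divisible by `3` is three times a form in the integral lattice. -/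
theorem Div3.exists_eq_smul {g : CuspForm (Gamma0 N) 2} (h : Div3 g) :
    ∃ g' ∈ CuspForm.intLattice N 2, g = (3 : ℂ) • g' := by
  refine ⟨(3⁻¹ : ℂ) • g, ?_, ?_⟩
  · rw [mem_intLattice_iff]
    intro n
    obtain ⟨m, hm⟩ := h n
    exact ⟨m, by rw [qCoeff_smul, hm]; field_simp⟩
  · rw [smul_smul]; norm_num

theorem div3_of_eq_smul {g g' : CuspForm (Gamma0 N) 2} (hg' : g' ∈ CuspForm.intLattice N 2)
    (h : g = (3 : ℂ) • g') : Div3 g := fun n => by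
  obtain ⟨m, hm⟩ := (mem_intLattice_iff g').mp hg' n
  exact ⟨m, by rw [h, qCoeff_smul, hm]⟩

/-- Hecke operators preserve divisibility by `3`. -/
theorem Div3.hecke [NeZero N] {S : Set ℕ} {t : Module.End ℂ (CuspForm (Gamma0 N) 2)}
    (ht : t ∈ CuspForm.heckeAlgebra N 2 S) {g : CuspForm (Gamma0 N) 2} (h : Div3 g) :
    Div3 (t g) := by
  obtain ⟨g', hg', rfl⟩ := h.exists_eq_smul
  exact div3_of_eq_smul (CuspForm.mem_intLattice_of_mem_heckeAlgebra one_le_two ht hg')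
    (map_smul t 3 g')

section Datum

variable (a : ℕ → ℤ) (f : CuspForm (Gamma0 N) 2) (af : ℕ → ℤ)

theorem int_T_congr (hcong : ∀ n, (3 : ℤ) ∣ af n - a n)
    (heig : FormalHecke.IsEigensystem
      (fun ℓ => if ℓ ∣ N then 0 else ((chiNegThree ℓ : ℤ) : ℤ)) a)
    {ℓ : ℕ} (hℓ : ℓ.Prime) (hℓN : ¬ ℓ ∣ N) (n : ℕ) :
    (3 : ℤ) ∣ af (n * ℓ) + (if ℓ ∣ n then (ℓ : ℤ) * af (n / ℓ) else 0) - a ℓ * af n := by
  obtain ⟨d1, h1⟩ := hcong (n * ℓ)
  obtain ⟨d2, h2⟩ := hcong (n / ℓ)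
  obtain ⟨d3, h3⟩ := hcong n
  obtain ⟨d4, h4⟩ := three_dvd_cast_sub_chiNegThree ℓ
  have he := heig.2 ℓ hℓ n
  simp only [if_neg hℓN] at he
  rw [mul_comm ℓ n] at he
  by_cases hdiv : ℓ ∣ n
  · simp only [if_pos hdiv] at he ⊢
    exact ⟨d4 * a (n / ℓ) + d1 + ℓ * d2 - a ℓ * d3, by
      linear_combination h1 + (ℓ : ℤ) * h2 - a ℓ * h3 + a (n / ℓ) * h4 + he⟩
  · simp only [if_neg hdiv] at he ⊢
    exact ⟨d1 - a ℓ * d3, by linear_combination h1 - a ℓ * h3 + he⟩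

theorem int_U_congr (hcong : ∀ n, (3 : ℤ) ∣ af n - a n)
    (heig : FormalHecke.IsEigensystem
      (fun ℓ => if ℓ ∣ N then 0 else ((chiNegThree ℓ : ℤ) : ℤ)) a)
    {ℓ : ℕ} (hℓ : ℓ.Prime) (hℓN : ℓ ∣ N) (n : ℕ) :
    (3 : ℤ) ∣ af (n * ℓ) - a ℓ * af n := by
  obtain ⟨d1, h1⟩ := hcong (n * ℓ)
  obtain ⟨d3, h3⟩ := hcong n
  have he := heig.2 ℓ hℓ n
  simp only [if_pos hℓN, zero_mul, add_zero] at he
  rw [mul_comm ℓ n] at he
  exact ⟨d1 - a ℓ * d3, by linear_combination h1 - a ℓ * h3 + he⟩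

variable {a f af}

theorem div3_heckeT_sub (haf : ∀ n, (af n : ℂ) = qCoeff ⇑f n)
    (hcong : ∀ n, (3 : ℤ) ∣ af n - a n)
    (heig : FormalHecke.IsEigensystem
      (fun ℓ => if ℓ ∣ N then 0 else ((chiNegThree ℓ : ℤ) : ℤ)) a)
    {ℓ : ℕ} (hℓ : ℓ.Prime) (hℓN : ¬ ℓ ∣ N) :
    Div3 (CuspForm.heckeTLin 2 hℓ hℓN f - (a ℓ) • f) := by
  intro n
  obtain ⟨m, hm⟩ := int_T_congr a af hcong heig hℓ hℓN n
  refine ⟨m, ?_⟩
  rw [qCoeff_sub, qCoeff_heckeTLin, qCoeff_zsmul, ← haf, ← haf, ← haf]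
  have := congrArg (Int.cast : ℤ → ℂ) hm
  push_cast at this
  rw [← this]
  split_ifs <;> simp

theorem div3_heckeU_sub [NeZero N] (haf : ∀ n, (af n : ℂ) = qCoeff ⇑f n)
    (hcong : ∀ n, (3 : ℤ) ∣ af n - a n)
    (heig : FormalHecke.IsEigensystem
      (fun ℓ => if ℓ ∣ N then 0 else ((chiNegThree ℓ : ℤ) : ℤ)) a)
    {ℓ : ℕ} (hℓ : ℓ.Prime) (hℓN : ℓ ∣ N) :
    Div3 (CuspForm.heckeULin 2 hℓN f - (a ℓ) • f) := by
  intro n
  obtain ⟨m, hm⟩ := int_U_congr a af hcong heig hℓ hℓN n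
  refine ⟨m, ?_⟩
  rw [qCoeff_sub, qCoeff_heckeULin hℓ, qCoeff_zsmul, ← haf, ← haf]
  have := congrArg (Int.cast : ℤ → ℂ) hm
  push_cast at this
  rw [← this]

/-- Every Hecke operator acts on `f` modulo `3` by an integer scalar. -/
theorem exists_int_eigen [NeZero N] (haf : ∀ n, (af n : ℂ) = qCoeff ⇑f n)
    (hcong : ∀ n, (3 : ℤ) ∣ af n - a n)
    (heig : FormalHecke.IsEigensystem
      (fun ℓ => if ℓ ∣ N then 0 else ((chiNegThree ℓ : ℤ) : ℤ)) a)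
    {S : Set ℕ} {t : Module.End ℂ (CuspForm (Gamma0 N) 2)}
    (ht : t ∈ CuspForm.heckeAlgebra N 2 S) : ∃ c : ℤ, Div3 (t f - c • f) := by
  have ht' : t ∈ Algebra.adjoin ℤ (CuspForm.heckeGenerators N 2 S) := ht
  induction ht' using Algebra.adjoin_induction with
  | mem x hx =>
    rcases hx with ⟨ℓ, hℓ, hℓN, -, rfl⟩ | ⟨q, hqN, hq, -, rfl⟩
    · exact ⟨a ℓ, div3_heckeT_sub haf hcong heig hℓ hℓN⟩
    · exact ⟨a q, div3_heckeU_sub haf hcong heig hq hqN⟩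
  | algebraMap r =>
    refine ⟨r, ?_⟩
    rw [Algebra.algebraMap_eq_smul_one, LinearMap.smul_apply, Module.End.one_apply, sub_self]
    exact div3_zero
  | add x y hxm hym hx hy =>
    obtain ⟨cx, hx⟩ := hx hxm
    obtain ⟨cy, hy⟩ := hy hym
    refine ⟨cx + cy, ?_⟩
    have : (x + y) f - (cx + cy) • f = (x f - cx • f) + (y f - cy • f) := by
      rw [LinearMap.add_apply, add_smul]; abel
    rw [this]
    exact hx.add hy
  | mul x y hxm hym hx hy =>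
    obtain ⟨cx, hx⟩ := hx hxm
    obtain ⟨cy, hy⟩ := hy hym
    refine ⟨cx * cy, ?_⟩
    have : (x * y) f - (cx * cy) • f = x (y f - cy • f) + cy • (x f - cx • f) := by
      rw [Module.End.mul_apply, map_sub, map_zsmul, smul_sub, mul_comm cx cy, mul_smul]; abel
    rw [this]
    exact (Div3.hecke (S := S) hxm hy).add (hx.zsmul cy)

/-- The integer scalar by which a Hecke operator acts on `f` modulo `3` is unique modulo `3`. -/
theorem int_eigen_unique (haf : ∀ n, (af n : ℂ) = qCoeff ⇑f n)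
    (hcong : ∀ n, (3 : ℤ) ∣ af n - a n) (ha1 : a 1 = 1)
    {g : CuspForm (Gamma0 N) 2} {c c' : ℤ} (h : Div3 (g - c • f)) (h' : Div3 (g - c' • f)) :
    (c : ZMod 3) = (c' : ZMod 3) := by
  have hsub : Div3 ((c' - c) • f) := by
    have : (c' - c) • f = (g - c • f) - (g - c' • f) := by rw [sub_smul]; abel
    rw [this]; exact h.sub h'
  obtain ⟨m, hm⟩ := hsub 1
  obtain ⟨d, hd⟩ := hcong 1
  rw [qCoeff_zsmul, ← haf] at hm
  have hm' : (c' - c) * af 1 = 3 * m := by exact_mod_cast hm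
  rw [ZMod.intCast_eq_intCast_iff_dvd_sub]
  exact ⟨m - (c' - c) * d, by rw [ha1] at hd; linear_combination hm' - (c' - c) * hd⟩

/-- The underlying function of the mod-3 character of the Hecke algebra cut out by `f`. -/
def phiFun [NeZero N] (haf : ∀ n, (af n : ℂ) = qCoeff ⇑f n)
    (hcong : ∀ n, (3 : ℤ) ∣ af n - a n)
    (heig : FormalHecke.IsEigensystem
      (fun ℓ => if ℓ ∣ N then 0 else ((chiNegThree ℓ : ℤ) : ℤ)) a)
    (S : Set ℕ) (t : CuspForm.heckeAlgebra N 2 S) : ZMod 3 :=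
  ((exists_int_eigen haf hcong heig t.2).choose : ZMod 3)

theorem phiFun_eq [NeZero N] (haf : ∀ n, (af n : ℂ) = qCoeff ⇑f n)
    (hcong : ∀ n, (3 : ℤ) ∣ af n - a n)
    (heig : FormalHecke.IsEigensystem
      (fun ℓ => if ℓ ∣ N then 0 else ((chiNegThree ℓ : ℤ) : ℤ)) a)
    (S : Set ℕ) (t : CuspForm.heckeAlgebra N 2 S) (c : ℤ)
    (h : Div3 ((t : Module.End ℂ (CuspForm (Gamma0 N) 2)) f - c • f)) :
    phiFun haf hcong heig S t = (c : ZMod 3) :=
  int_eigen_unique haf hcong heig.1 (exists_int_eigen haf hcong heig t.2).choose_spec h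

theorem phiFun_spec [NeZero N] (haf : ∀ n, (af n : ℂ) = qCoeff ⇑f n)
    (hcong : ∀ n, (3 : ℤ) ∣ af n - a n)
    (heig : FormalHecke.IsEigensystem
      (fun ℓ => if ℓ ∣ N then 0 else ((chiNegThree ℓ : ℤ) : ℤ)) a)
    (S : Set ℕ) (t : CuspForm.heckeAlgebra N 2 S) :
    ∃ c : ℤ, Div3 ((t : Module.End ℂ (CuspForm (Gamma0 N) 2)) f - c • f) ∧
      phiFun haf hcong heig S t = (c : ZMod 3) :=
  ⟨_, (exists_int_eigen haf hcong heig t.2).choose_spec, rfl⟩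

/-- The mod-3 character of the Hecke algebra cut out by `f`. -/
def phi [NeZero N] (haf : ∀ n, (af n : ℂ) = qCoeff ⇑f n)
    (hcong : ∀ n, (3 : ℤ) ∣ af n - a n)
    (heig : FormalHecke.IsEigensystem
      (fun ℓ => if ℓ ∣ N then 0 else ((chiNegThree ℓ : ℤ) : ℤ)) a)
    (S : Set ℕ) : CuspForm.heckeAlgebra N 2 S →+* ZMod 3 where
  toFun := phiFun haf hcong heig S
  map_one' := by
    rw [phiFun_eq haf hcong heig S 1 1 (by
      rw [OneMemClass.coe_one, Module.End.one_apply, one_smul, sub_self]; exact div3_zero)]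
    simp
  map_mul' s t := by
    obtain ⟨cs, hs, hs'⟩ := phiFun_spec haf hcong heig S s
    obtain ⟨ct, ht, ht'⟩ := phiFun_spec haf hcong heig S t
    rw [hs', ht', phiFun_eq haf hcong heig S (s * t) (cs * ct) ?_]
    · push_cast; rfl
    · have : ((s * t : CuspForm.heckeAlgebra N 2 S) : Module.End ℂ (CuspForm (Gamma0 N) 2)) f
          - (cs * ct) • f = (s : Module.End ℂ (CuspForm (Gamma0 N) 2))
            ((t : Module.End ℂ (CuspForm (Gamma0 N) 2)) f - ct • f) +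
          ct • ((s : Module.End ℂ (CuspForm (Gamma0 N) 2)) f - cs • f) := by
        rw [MulMemClass.coe_mul, Module.End.mul_apply, map_sub, map_zsmul, smul_sub,
          mul_comm cs ct, mul_smul]; abel
      rw [this]
      exact (Div3.hecke s.2 ht).add (hs.zsmul ct)
  map_zero' := by
    rw [phiFun_eq haf hcong heig S 0 0 (by
      rw [ZeroMemClass.coe_zero, LinearMap.zero_apply, zero_smul, sub_self]; exact div3_zero)]
    simp
  map_add' s t := by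
    obtain ⟨cs, hs, hs'⟩ := phiFun_spec haf hcong heig S s
    obtain ⟨ct, ht, ht'⟩ := phiFun_spec haf hcong heig S t
    rw [hs', ht', phiFun_eq haf hcong heig S (s + t) (cs + ct) ?_]
    · push_cast; rfl
    · have : ((s + t : CuspForm.heckeAlgebra N 2 S) : Module.End ℂ (CuspForm (Gamma0 N) 2)) f
          - (cs + ct) • f = ((s : Module.End ℂ (CuspForm (Gamma0 N) 2)) f - cs • f) +
          ((t : Module.End ℂ (CuspForm (Gamma0 N) 2)) f - ct • f) := by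
        rw [AddMemClass.coe_add, LinearMap.add_apply, add_smul]; abel
      rw [this]
      exact hs.add ht

theorem phi_eq [NeZero N] (haf : ∀ n, (af n : ℂ) = qCoeff ⇑f n)
    (hcong : ∀ n, (3 : ℤ) ∣ af n - a n)
    (heig : FormalHecke.IsEigensystem
      (fun ℓ => if ℓ ∣ N then 0 else ((chiNegThree ℓ : ℤ) : ℤ)) a)
    (S : Set ℕ) (t : CuspForm.heckeAlgebra N 2 S) (c : ℤ)
    (h : Div3 ((t : Module.End ℂ (CuspForm (Gamma0 N) 2)) f - c • f)) :
    phi haf hcong heig S t = (c : ZMod 3) :=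
  phiFun_eq haf hcong heig S t c h

/-- `T_ℓ - a_ℓ` lies in the kernel of the mod-3 character. -/
theorem phi_T [NeZero N] (haf : ∀ n, (af n : ℂ) = qCoeff ⇑f n)
    (hcong : ∀ n, (3 : ℤ) ∣ af n - a n)
    (heig : FormalHecke.IsEigensystem
      (fun ℓ => if ℓ ∣ N then 0 else ((chiNegThree ℓ : ℤ) : ℤ)) a)
    (S : Set ℕ) {ℓ : ℕ} (hℓ : ℓ.Prime) (hℓN : ¬ ℓ ∣ N) (hℓS : ℓ ∉ S) :
    phi haf hcong heig S (CuspForm.heckeAlgebra.T hℓ hℓN hℓS) = (a ℓ : ZMod 3) :=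
  phi_eq haf hcong heig S _ _ (div3_heckeT_sub haf hcong heig hℓ hℓN)

end Datum

end Fermat.Agent.S49
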